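import Fermat.Agent.S13.Two.Input
import Fermat.Agent.S13.HalfProduct
import Fermat.Agent.S13.LocalP.Flag

/-!
# P-S13, local analysis at `2`: (2c) and (U2) from the local input `TwoInput P A`

* `exists_zpow_valuation_rat`: the valuation of a nonzero rational at a valuation subring over `q`
  is an integral power of `v q`; `exists_valuation_a₄`: `v (a₄) = v (2) ^ (p k - 4)`, `k = v₂ (b)`.
* `isE0Two_of_mem` **(2c)**: a Galois-stable line `N` lies in `E₀(A)`: otherwise, by (LM4),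
  `v (r) ^ p = v (a₄) ^ ((p² - 1)/4)` for the rational half product `r` (`S13/HalfProduct`), so
  `p ∣ (p k - 4)(p² - 1)/4`, hence `p ∣ 4`.
* `trivOn_and_trivMod`, `localTwo_of_input` **(U2)**: inertia at `2` is trivial on `N` and on `T/N`.
-/

set_option autoImplicit false
set_option linter.unusedSectionVars false
set_option linter.unusedVariables false

namespace Fermat.Agent.S13.Two

open WeierstrassCurve WeierstrassCurve.Affine WeierstrassCurve.Affine.Point
open Fermat.Agent.Lib.EC.LocalOrder (xCoord)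
open Fermat.Agent.S13

section RatVal

variable {L : Type*} [Field L] [CharZero L] (A : ValuationSubring L) {q : ℕ}

/-- The valuation of a nonzero integer at a valuation subring over `q` is a power of `v q`. -/
theorem exists_pow_valuation_int (hq : q.Prime) (hA : (q : L) ∈ A.nonunits) {n : ℤ}
    (hn : n ≠ 0) : ∃ k : ℕ, A.valuation (n : L) = A.valuation (q : L) ^ k ∧
      ∃ n' : ℤ, n = (q : ℤ) ^ k * n' ∧ ¬ (q : ℤ) ∣ n' := by
  have hfin : FiniteMultiplicity (q : ℤ) n := by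
    rw [Int.finiteMultiplicity_iff]
    refine ⟨?_, hn⟩
    rw [Int.natAbs_natCast]
    exact hq.one_lt.ne'
  obtain ⟨n', hn', hdvd⟩ := hfin.exists_eq_pow_mul_and_not_dvd
  refine ⟨multiplicity (q : ℤ) n, ?_, n', hn', hdvd⟩
  conv_lhs => rw [hn']
  push_cast
  rw [map_mul, map_pow, S05.valuation_intCast_eq_one hq hA hdvd, mul_one]

/-- The valuation of a nonzero rational at a valuation subring over `q` is an integral power of
`v q`. -/
theorem exists_zpow_valuation_rat (hq : q.Prime) (hA : (q : L) ∈ A.nonunits) {r : ℚ}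
    (hr : r ≠ 0) : ∃ z : ℤ, A.valuation (r : L) = A.valuation (q : L) ^ z := by
  obtain ⟨k₁, h₁, -⟩ := exists_pow_valuation_int A hq hA (Rat.num_ne_zero.mpr hr)
  obtain ⟨k₂, h₂, -⟩ := exists_pow_valuation_int A hq hA
    (n := (r.den : ℤ)) (by exact_mod_cast r.den_ne_zero)
  refine ⟨(k₁ : ℤ) - k₂, ?_⟩
  have hq0 : A.valuation (q : L) ≠ 0 := by
    rw [Valuation.ne_zero_iff]
    exact_mod_cast hq.ne_zero
  have : (r : L) = ((r.num : ℤ) : L) / ((r.den : ℤ) : L) := by
    rw [Int.cast_natCast]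
    exact Rat.cast_def r
  rw [this, map_div₀, h₁, h₂, zpow_sub₀ hq0, zpow_natCast, zpow_natCast]

include A in
theorem zpow_valuation_injective (hq : q.Prime) (hA : (q : L) ∈ A.nonunits) {a b : ℤ}
    (h : A.valuation (q : L) ^ a = A.valuation (q : L) ^ b) : a = b := by
  have hq0 : A.valuation (q : L) ≠ 0 := by
    rw [Valuation.ne_zero_iff]
    exact_mod_cast hq.ne_zero
  have hq1 : A.valuation (q : L) < 1 := (A.mem_nonunits_iff).mp hA
  exact zpow_right_injective₀ (zero_lt_iff.mpr hq0) hq1.ne h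

end RatVal

section TwoC

variable {P : FreyPackage} {A : ValuationSubring Qbar}

theorem freyCurve_a₄ (P : FreyPackage) : (P.freyCurve⁄Qbar).a₄ =
    -(((P.a : ℤ) : Qbar) ^ P.p) * ((P.b : ℤ) : Qbar) ^ P.p / 16 := by
  change algebraMap ℚ Qbar (-(P.a ^ P.p) * (P.b ^ P.p) / 16) = _
  push_cast
  rfl

/-- `v (a₄) = v (2) ^ (p k - 4)` with `k = v₂ (b) ≥ 1`. -/
theorem exists_valuation_a₄ (hA : A.LiesOverPrime 2) :
    ∃ k : ℕ, A.valuation (P.freyCurve⁄Qbar).a₄ =
      A.valuation (2 : Qbar) ^ ((P.p : ℤ) * k - 4) := by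
  have hA' : ((2 : ℕ) : Qbar) ∈ A.nonunits := hA
  obtain ⟨k, hk, -⟩ := exists_pow_valuation_int A Nat.prime_two hA' P.hb0
  have ha : A.valuation ((P.a : ℤ) : Qbar) = 1 := by
    apply S05.valuation_intCast_eq_one Nat.prime_two hA'
    intro h2
    have h4 : ((3 : ℤ) : ZMod 4) = ((P.a : ℤ) : ZMod 4) := by
      rw [P.ha4]; norm_num
    rw [ZMod.intCast_eq_intCast_iff_dvd_sub] at h4
    obtain ⟨m, hm⟩ := h2
    obtain ⟨t, ht⟩ := h4
    push_cast at hm ht
    omega
  have h2 : A.valuation (2 : Qbar) ≠ 0 := by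
    rw [Valuation.ne_zero_iff]; norm_num
  refine ⟨k, ?_⟩
  rw [freyCurve_a₄, map_div₀, map_mul, Valuation.map_neg, map_pow, map_pow, ha, one_pow, one_mul,
    hk]
  have h16 : A.valuation (16 : Qbar) = A.valuation (2 : Qbar) ^ 4 := by
    rw [← map_pow]; norm_num
  rw [h16, Nat.cast_ofNat, zpow_sub₀ h2, zpow_mul, zpow_natCast, zpow_natCast, ← pow_mul,
    ← pow_mul, mul_comm k P.p]
  norm_cast

theorem four_mul_div (P : FreyPackage) : 4 * ((P.p ^ 2 - 1) / 4) = P.p ^ 2 - 1 := by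
  obtain ⟨t, ht⟩ := P.hp_odd
  have h : P.p ^ 2 - 1 = 4 * (t * (t + 1)) := by
    rw [ht]
    have : (2 * t + 1) ^ 2 = 4 * (t * (t + 1)) + 1 := by ring
    rw [this, Nat.add_sub_cancel]
  rw [h, Nat.mul_div_cancel_left _ (by norm_num : 0 < 4)]

/-- **(2c)** a Galois-stable line lies in the identity component at `2`. -/
theorem isE0Two_of_mem (hI : TwoInput P A) (hA : A.LiesOverPrime 2)
    (N : Submodule (ZMod P.p) (Tors P)) (hN : IsGaloisStable ℚ N) (h1 : N ≠ ⊤)
    {x : Tors P} (hx : x ∈ N) : IsE0Two P A (x : (P.freyCurve⁄Qbar).Point) := by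
  by_contra hE
  have hx0 : x ≠ 0 := by
    rintro rfl
    exact hE (Or.inl rfl)
  have hA' : ((2 : ℕ) : Qbar) ∈ A.nonunits := hA
  have hpx := HalfProduct.nsmul_coe_eq_zero x
  have h4 := hI.lm4 _ hpx hE
  obtain ⟨r, hr⟩ := HalfProduct.exists_rat_halfProd N hN h1 hx hx0
  obtain ⟨k, hk⟩ := exists_valuation_a₄ (P := P) hA
  rw [Finset.prod_pow, ← map_prod] at h4
  change A.valuation (HalfProduct.halfProd x) ^ P.p = _ at h4
  rw [← hr] at h4
  have h20 : A.valuation (2 : Qbar) ≠ 0 := by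
    rw [Valuation.ne_zero_iff]; norm_num
  have hr0 : r ≠ 0 := by
    rintro rfl
    rw [_root_.map_zero, _root_.map_zero, zero_pow P.hp0, hk] at h4
    exact (pow_ne_zero _ (zpow_ne_zero _ h20)) h4.symm
  obtain ⟨z, hz⟩ := exists_zpow_valuation_rat A Nat.prime_two hA' hr0
  have hcast : algebraMap ℚ Qbar r = (r : Qbar) := rfl
  rw [hcast, hz, hk, Nat.cast_ofNat, ← zpow_natCast, ← zpow_mul, ← zpow_natCast (_ ^ _),
    ← zpow_mul] at h4
  have heq : z * (P.p : ℤ) = ((P.p : ℤ) * k - 4) * (((P.p ^ 2 - 1) / 4 : ℕ) : ℤ) :=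
    zpow_valuation_injective A Nat.prime_two hA' h4
  -- arithmetic
  have hM := four_mul_div P
  have hp1 : 1 ≤ P.p ^ 2 := Nat.one_le_pow _ _ P.hppos
  have hMz : (4 : ℤ) * (((P.p ^ 2 - 1) / 4 : ℕ) : ℤ) = (P.p : ℤ) ^ 2 - 1 := by
    have h : ((4 * ((P.p ^ 2 - 1) / 4) : ℕ) : ℤ) = ((P.p ^ 2 - 1 : ℕ) : ℤ) := by rw [hM]
    rw [Nat.cast_mul, Nat.cast_sub hp1] at h
    push_cast at h
    exact h
  set M : ℤ := (((P.p ^ 2 - 1) / 4 : ℕ) : ℤ) with hMdef
  have hdvd : (P.p : ℤ) ∣ 1 := by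
    have h1' : (P.p : ℤ) ∣ 4 * M := ⟨(k : ℤ) * M - z, by linear_combination heq⟩
    rw [hMz] at h1'
    have h2' : (P.p : ℤ) ∣ (P.p : ℤ) ^ 2 := dvd_pow_self _ two_ne_zero
    have := dvd_sub h2' h1'
    simpa using this
  have := Int.le_of_dvd one_pos hdvd
  have := P.hp5
  omega

end TwoC

section Assembly

variable {P : FreyPackage} {A : ValuationSubring Qbar}

/-- `T₀ = T ∩ E₀(A)` as an additive subgroup. -/
noncomputable def torsE0 (hI : TwoInput P A) : AddSubgroup (Tors P) where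
  carrier := {x | IsE0Two P A (x : (P.freyCurve⁄Qbar).Point)}
  zero_mem' := Or.inl rfl
  add_mem' := fun {x y} hx hy => hI.add _ _ hx hy
  neg_mem' := fun {x} hx => hI.neg _ hx

theorem mem_torsE0 (hI : TwoInput P A) (x : Tors P) :
    x ∈ torsE0 hI ↔ IsE0Two P A (x : (P.freyCurve⁄Qbar).Point) := Iff.rfl

/-- inertia fixes `T₀` pointwise. -/
theorem smul_eq_of_mem_torsE0 (hI : TwoInput P A) {σ : GQ} (hσ : σ ∈ A.inertiaSubgroupIn ℚ)
    {x : Tors P} (hx : x ∈ torsE0 hI) : σ • x = x := by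
  apply Subtype.ext
  exact hI.l0 σ hσ _ hx (HalfProduct.nsmul_coe_eq_zero x)

/-- **(U2)** from the local input at `A`. -/
theorem trivOn_and_trivMod (hI : TwoInput P A) (hA : A.LiesOverPrime 2)
    (N : Submodule (ZMod P.p) (Tors P)) (hN : IsGaloisStable ℚ N) (h0 : N ≠ ⊥) (h1 : N ≠ ⊤)
    {σ : GQ} (hσ : σ ∈ A.inertiaSubgroupIn ℚ) : TrivOn N σ ∧ TrivMod N σ := by
  have : Fact P.p.Prime := ⟨P.pp⟩
  set T0 : Submodule (ZMod P.p) (Tors P) := AddSubgroup.toZModSubmodule P.p (torsE0 hI) with hT0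
  have hNT0 : N ≤ T0 := fun x hx => isE0Two_of_mem hI hA N hN h1 hx
  have hfix : ∀ x ∈ T0, σ • x = x := fun x hx => smul_eq_of_mem_torsE0 hI hσ hx
  refine ⟨fun x hx => hfix x (hNT0 hx), fun x => ?_⟩
  have hy : σ • x - x ∈ T0 := hI.lm1 σ hσ (x : (P.freyCurve⁄Qbar).Point)
  by_cases htop : T0 = ⊤
  · have hx : x ∈ T0 := by rw [htop]; exact Submodule.mem_top
    rw [hfix x hx, sub_self]
    exact N.zero_mem
  · rcases LocalP.le_or_inf_eq_bot (HalfProduct.finrank_tors (P := P)) h0 h1 htop with h | h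
    · exact h hy
    · exfalso
      apply h0
      rw [← h]
      exact (inf_eq_right.mpr hNT0).symm

/-- **(U2)**: `LocalTwo P` from the local inputs at all valuation subrings over `2`. -/
theorem localTwo_of_input
    (hI : ∀ A : ValuationSubring Qbar, A.LiesOverPrime 2 → TwoInput P A) : LocalTwo P :=
  fun N hN h0 h1 A hA _ hσ => trivOn_and_trivMod (hI A hA) hA N hN h0 h1 hσ

end Assembly

end Fermat.Agent.S13.Two
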