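import Fermat.Agent.S13.Global
import Fermat.Agent.Lib.EC.FunctionField.LocalOrder

/-!
# P-S13, local analysis at `2`: the interface between the transfer to the nodal model and the
assembly of (U2), (2c), (R2)

Everything is stated in the ORIGINAL Frey coordinates over `ℚ̄`.  For a valuation subring `A` of
`ℚ̄` over `2` the identity component is `E₀(A) = {O} ∪ {Q | 1 ≤ v (x Q)}` (the node of the reduced
curve `y² + xy = x³ + ā₂ x²` is `(0, 0)`).  `TwoInput P A` collects what the transfer
Frey → nodal model `N_b` + the component theory (`S13/Nodal`, `S13/LocalMult*`, `S13/LocalL0`)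
must provide; `S13/Two/Assembly.lean` deduces (2c), (U2) from it.
-/

set_option autoImplicit false

namespace Fermat.Agent.S13.Two

open WeierstrassCurve WeierstrassCurve.Affine WeierstrassCurve.Affine.Point
open Fermat.Agent.Lib.EC.LocalOrder (xCoord)
open Fermat.Agent.S13

/-- The identity component `E₀(A)` of the Frey curve at a valuation subring `A` over `2`, in Frey
coordinates: the point at infinity and the affine points with `1 ≤ v (x)`. -/
def IsE0Two (P : FreyPackage) (A : ValuationSubring Qbar) (Q : (P.freyCurve⁄Qbar).Point) : Prop :=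
  Q = 0 ∨ 1 ≤ A.valuation (xCoord _ Q)

/-- The local input at a valuation subring `A` of `ℚ̄` over `2`. -/
structure TwoInput (P : FreyPackage) (A : ValuationSubring Qbar) : Prop where
  /-- `E₀(A)` is a subgroup -/
  add : ∀ Q R : (P.freyCurve⁄Qbar).Point, IsE0Two P A Q → IsE0Two P A R → IsE0Two P A (Q + R)
  neg : ∀ Q : (P.freyCurve⁄Qbar).Point, IsE0Two P A Q → IsE0Two P A (-Q)
  /-- (LM1) inertia preserves the components -/
  lm1 : ∀ σ ∈ A.inertiaSubgroupIn ℚ, ∀ Q : (P.freyCurve⁄Qbar).Point, IsE0Two P A (σ • Q - Q)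
  /-- (L0) inertia fixes the `p`-torsion of `E₀(A)` -/
  l0 : ∀ σ ∈ A.inertiaSubgroupIn ℚ, ∀ Q : (P.freyCurve⁄Qbar).Point, IsE0Two P A Q →
    P.p • Q = 0 → σ • Q = Q
  /-- (LM4) the Gauss-lemma product for a `p`-torsion point outside `E₀(A)` -/
  lm4 : ∀ Q : (P.freyCurve⁄Qbar).Point, P.p • Q = 0 → ¬ IsE0Two P A Q →
    ∏ j ∈ Finset.Ico 1 (P.p / 2 + 1), A.valuation (xCoord _ (j • Q)) ^ P.p =
      A.valuation (P.freyCurve⁄Qbar).a₄ ^ ((P.p ^ 2 - 1) / 4)

end Fermat.Agent.S13.Two
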