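/-
P-S13, local analysis at `2`: transfer between a curve `E : y² + x y = x³ + a₂ x² + a₄ x`
(the shape of the Frey curve) and the nodal normal form `N_b : y² + x y = x³ + b x` of `S13/Nodal`.

Given `α` with `α² + α = a₂` and `u := 1 + 2 α ≠ 0`, the substitution
`(X, Y) ↦ (u² X, u³ Y + α u² X)` maps `N_b`, `b = a₄ / u⁴`, isomorphically onto `E`
(`transferEquiv`).  If `u` is a unit of a valuation subring `A` and `v a₄ < 1`, `a₄ ≠ 0`, then
`N_b` satisfies `NodalData A`, and `v (x (ψ Q)) = v (X Q)`.

Also: for `E` of this shape over a valuation subring with `v 2 < 1`, `a₂ ∈ A`, `v a₄ < 1`, the points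
of `E` with nonsingular reduction are those with `1 ≤ v x` (`isE0_iff_isIdent_of_two`).
-/
import Mathlib
import Fermat.Agent.S05.Transfer
import Fermat.Agent.S13.LocalL0

set_option autoImplicit false
set_option linter.unusedSectionVars false

namespace Fermat.Agent.S13.Two

open WeierstrassCurve WeierstrassCurve.Affine Fermat.Agent.Lib.EC Fermat.Agent.S13.Nodal
open Fermat.Agent.S05.Transfer

variable {K : Type*} [Field K]

/-- The shape `y² + x y = x³ + a₂ x² + a₄ x` of the Frey curve. -/
structure IsFreyShape (E : WeierstrassCurve K) : Prop where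
  a₁ : E.a₁ = 1
  a₃ : E.a₃ = 0
  a₆ : E.a₆ = 0

/-- The nodal normal form attached to `E` and a root `α` of `T² + T = a₂`. -/
def nodalOf (E : WeierstrassCurve K) (α : K) : WeierstrassCurve K :=
  ⟨1, 0, 0, E.a₄ / (1 + 2 * α) ^ 4, 0⟩

@[simp] theorem nodalOf_a₄ (E : WeierstrassCurve K) (α : K) :
    (nodalOf E α).a₄ = E.a₄ / (1 + 2 * α) ^ 4 := rfl

theorem isNodalModel_nodalOf (E : WeierstrassCurve K) (α : K) : IsNodalModel (nodalOf E α) :=
  ⟨rfl, rfl, rfl, rfl⟩

/-- The change of variables `(X, Y) ↦ (u² X, u³ Y + α u² X)`. -/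
def changeOf (α : K) (hu : 1 + 2 * α ≠ 0) : VariableChange K :=
  ⟨Units.mk0 (1 + 2 * α) hu, 0, α, 0⟩

theorem changeOf_smul {E : WeierstrassCurve K} (hE : IsFreyShape E) {α : K}
    (hα : α ^ 2 + α = E.a₂) (hu : 1 + 2 * α ≠ 0) : changeOf α hu • E = nodalOf E α := by
  ext
  · simp only [variableChange_a₁, changeOf, nodalOf, hE.a₁, Units.val_inv_eq_inv_val,
      Units.val_mk0]
    field_simp
  · simp only [variableChange_a₂, changeOf, nodalOf, hE.a₁, Units.val_inv_eq_inv_val,
      Units.val_mk0, ← hα]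
    ring
  · simp only [variableChange_a₃, changeOf, nodalOf, hE.a₁, hE.a₃, Units.val_inv_eq_inv_val,
      Units.val_mk0]
    ring
  · simp only [variableChange_a₄, changeOf, nodalOf, hE.a₁, hE.a₃, Units.val_inv_eq_inv_val,
      Units.val_mk0]
    field_simp
    ring
  · simp only [variableChange_a₆, changeOf, nodalOf, hE.a₁, hE.a₃, hE.a₆,
      Units.val_inv_eq_inv_val, Units.val_mk0]
    ring

section Hom

variable [DecidableEq K] {E : WeierstrassCurve K} (hE : IsFreyShape E) {α : K}
  (hα : α ^ 2 + α = E.a₂) (hu : 1 + 2 * α ≠ 0)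

/-- The transfer homomorphism `ψ : N_b(K) → E(K)`. -/
def transfer : (nodalOf E α).toAffine.Point →+ E.toAffine.Point :=
  transferHom (changeOf α hu) (changeOf_smul hE hα hu)

theorem transfer_zero : transfer hE hα hu 0 = 0 := rfl

theorem transfer_some {X Y : K} (h : (nodalOf E α).toAffine.Nonsingular X Y) :
    ∃ h' : E.toAffine.Nonsingular ((1 + 2 * α) ^ 2 * X)
        ((1 + 2 * α) ^ 3 * Y + (1 + 2 * α) ^ 2 * α * X),
      transfer hE hα hu (Point.some X Y h) = Point.some _ _ h' := by
  have h0 := transferFun_some (changeOf α hu) (changeOf_smul hE hα hu) h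
  have e1 : newX (changeOf α hu) X = (1 + 2 * α) ^ 2 * X := by
    simp [newX, changeOf]
  have e2 : newY (changeOf α hu) X Y = (1 + 2 * α) ^ 3 * Y + (1 + 2 * α) ^ 2 * α * X := by
    simp [newY, changeOf]
  have hns : E.toAffine.Nonsingular ((1 + 2 * α) ^ 2 * X)
      ((1 + 2 * α) ^ 3 * Y + (1 + 2 * α) ^ 2 * α * X) := by
    rw [← e1, ← e2, nonsingular_new, changeOf_smul hE hα hu]
    exact h
  refine ⟨hns, ?_⟩
  have e0 : transfer hE hα hu (Point.some X Y h) =
      transferFun (changeOf α hu) (changeOf_smul hE hα hu) (Point.some X Y h) := rfl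
  rw [e0, h0]
  exact some_congr _ e1 e2 _

theorem transfer_injective : Function.Injective (transfer hE hα hu) :=
  transferFun_injective (changeOf α hu) (changeOf_smul hE hα hu)

theorem transfer_surjective : Function.Surjective (transfer hE hα hu) := by
  rintro (_ | ⟨x, y, h⟩)
  · exact ⟨0, rfl⟩
  · have hu2 : (1 + 2 * α) ^ 2 ≠ 0 := pow_ne_zero _ hu
    have hu3 : (1 + 2 * α) ^ 3 ≠ 0 := pow_ne_zero _ hu
    set X := x / (1 + 2 * α) ^ 2 with hX
    set Y := (y - α * x) / (1 + 2 * α) ^ 3 with hY
    have e1 : (1 + 2 * α) ^ 2 * X = x := by rw [hX]; field_simp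
    have e2 : (1 + 2 * α) ^ 3 * Y + (1 + 2 * α) ^ 2 * α * X = y := by
      rw [hX, hY]; field_simp; ring
    have e1' : newX (changeOf α hu) X = x := by
      rw [← e1]; simp [newX, changeOf]
    have e2' : newY (changeOf α hu) X Y = y := by
      rw [← e2]; simp [newY, changeOf]
    have hns : (nodalOf E α).toAffine.Nonsingular X Y := by
      rw [← changeOf_smul hE hα hu, ← nonsingular_new, e1', e2']
      exact h
    refine ⟨Point.some X Y hns, ?_⟩
    obtain ⟨h', e⟩ := transfer_some hE hα hu hns
    rw [e]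
    exact some_congr _ e1 e2 _

/-- The transfer isomorphism `ψ : N_b(K) ≃+ E(K)`. -/
noncomputable def transferEquiv : (nodalOf E α).toAffine.Point ≃+ E.toAffine.Point :=
  AddEquiv.ofBijective (transfer hE hα hu)
    ⟨transfer_injective hE hα hu, transfer_surjective hE hα hu⟩

@[simp] theorem transferEquiv_apply (Q : (nodalOf E α).toAffine.Point) :
    transferEquiv hE hα hu Q = transfer hE hα hu Q := rfl

end Hom

/-! ### Valuations -/

section Val

variable [DecidableEq K] {A : ValuationSubring K} {E : WeierstrassCurve K} (hE : IsFreyShape E)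
  {α : K} (hα : α ^ 2 + α = E.a₂)

/-- `u = 1 + 2 α` is a unit when `v 2 < 1` and `α ∈ A`. -/
theorem valuation_u (h2 : A.valuation (2 : K) < 1) (hαA : α ∈ A) :
    A.valuation (1 + 2 * α) = 1 := by
  have h : A.valuation (2 * α) < 1 := by
    rw [map_mul]
    exact lt_of_le_of_lt (mul_le_of_le_one_right' ((A.valuation_le_one_iff _).mpr hαA)) h2
  have := Valuation.map_add_eq_of_lt_left A.valuation (x := (1 : K)) (y := 2 * α)
    (by rwa [map_one])
  rwa [map_one] at this

theorem u_ne_zero_of_valuation (hv : A.valuation (1 + 2 * α) = 1) : 1 + 2 * α ≠ 0 := by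
  intro h
  rw [h, map_zero] at hv
  exact zero_ne_one hv

/-- A root of the monic polynomial `T² + T - a₂` with `a₂ ∈ A` lies in `A`. -/
theorem alpha_mem {E : WeierstrassCurve K} {α : K} (hα : α ^ 2 + α = E.a₂) (h2 : E.a₂ ∈ A) :
    α ∈ A := by
  by_contra hα'
  have hlt : 1 < A.valuation α := by
    rw [← not_le, A.valuation_le_one_iff]; exact hα'
  have h1 : A.valuation (α ^ 2 + α) = A.valuation α ^ 2 := by
    have : A.valuation α < A.valuation (α ^ 2) := by
      rw [map_pow, sq]
      calc A.valuation α = A.valuation α * 1 := (mul_one _).symm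
        _ < A.valuation α * A.valuation α :=
          mul_lt_mul_of_pos_left hlt (lt_trans zero_lt_one hlt)
    rw [Valuation.map_add_eq_of_lt_left _ this, map_pow]
  rw [hα] at h1
  have h3 : A.valuation E.a₂ ≤ 1 := (A.valuation_le_one_iff _).mpr h2
  rw [h1] at h3
  have : (1 : A.ValueGroup) < A.valuation α ^ 2 := one_lt_pow₀ hlt two_ne_zero
  exact absurd h3 (not_le.mpr this)

theorem nodalData_nodalOf (hv : A.valuation (1 + 2 * α) = 1) (h4 : A.valuation E.a₄ < 1)
    (h40 : E.a₄ ≠ 0) : NodalData A (nodalOf E α).toAffine := by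
  refine ⟨isNodalModel_nodalOf E α, ?_, ?_⟩
  · show A.valuation (E.a₄ / (1 + 2 * α) ^ 4) < 1
    rw [map_div₀, map_pow, hv, one_pow, div_one]
    exact h4
  · show E.a₄ / (1 + 2 * α) ^ 4 ≠ 0
    exact div_ne_zero h40 (pow_ne_zero _ (u_ne_zero_of_valuation hv))

theorem valuation_nodalOf_a₄ (hv : A.valuation (1 + 2 * α) = 1) :
    A.valuation (nodalOf E α).a₄ = A.valuation E.a₄ := by
  rw [nodalOf_a₄, map_div₀, map_pow, hv, one_pow, div_one]

/-- The transfer preserves the valuation of the `x`-coordinate: identity components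
correspond. -/
theorem isIdent_transfer_iff (hv : A.valuation (1 + 2 * α) = 1)
    (Q : (nodalOf E α).toAffine.Point) :
    IsIdent A (transfer hE hα (u_ne_zero_of_valuation hv) Q) ↔ IsIdent A Q := by
  rcases Q with _ | ⟨X, Y, h⟩
  · exact ⟨fun _ => trivial, fun _ => trivial⟩
  · obtain ⟨h', e⟩ := transfer_some hE hα (u_ne_zero_of_valuation hv) h
    rw [e, isIdent_some, isIdent_some, map_mul, map_pow, hv, one_pow, one_mul]

/-- The kernels of reduction correspond. -/
theorem kerRed_transfer_iff (hv : A.valuation (1 + 2 * α) = 1)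
    (Q : (nodalOf E α).toAffine.Point) :
    KerRed A (transfer hE hα (u_ne_zero_of_valuation hv) Q) ↔ KerRed A Q := by
  rcases Q with _ | ⟨X, Y, h⟩
  · exact ⟨fun _ => trivial, fun _ => trivial⟩
  · obtain ⟨h', e⟩ := transfer_some hE hα (u_ne_zero_of_valuation hv) h
    rw [e, kerRed_some, kerRed_some, ← A.valuation_le_one_iff, ← A.valuation_le_one_iff,
      map_mul, map_pow, hv, one_pow, one_mul]

end Val

/-! ### Points of `E` with nonsingular reduction, residue characteristic `2` -/

section RedTwo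

variable {A : ValuationSubring K} {k : Type*} [Field k] {π : A →+* k} [IsLocalHom π]

/-- On `y² + x y = x³ + a₂ x²` in characteristic `2`, a point is nonsingular iff `x ≠ 0`. -/
theorem frey_nonsingular_iff {Wk : Affine k} (h1 : Wk.a₁ = 1) (h3 : Wk.a₃ = 0)
    (h4 : Wk.a₄ = 0) (h6 : Wk.a₆ = 0) (h2 : (2 : k) = 0) {x y : k} (he : Wk.Equation x y) :
    Wk.Nonsingular x y ↔ x ≠ 0 := by
  rw [equation_iff, h1, h3, h4, h6] at he
  rw [nonsingular_iff, equation_iff, h1, h3, h4, h6]
  constructor
  · rintro ⟨-, hns⟩ hx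
    subst hx
    have hy : y = 0 := by
      have : y ^ 2 = 0 := by linear_combination he
      exact pow_eq_zero_iff (two_ne_zero) |>.mp this
    subst hy
    rcases hns with hns | hns
    · exact hns (by ring)
    · exact hns (by ring)
  · intro hx
    refine ⟨he, Or.inr ?_⟩
    intro hcon
    apply hx
    have : x = 2 * (-y) := by linear_combination hcon
    rw [this, h2, zero_mul]

/-- For `E : y² + x y = x³ + a₂ x² + a₄ x` over a valuation subring of residue characteristic `2`
with `v a₄ < 1`: the points with nonsingular reduction are those with `1 ≤ v x`. -/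
theorem isE0_iff_isIdent_of_two {E : WeierstrassCurve K} {Ek : WeierstrassCurve k}
    (hE : IsFreyShape E) (h2 : A.valuation (2 : K) < 1) (h4 : A.valuation E.a₄ < 1)
    (hR : IsReduction π E Ek) (P : E.toAffine.Point) :
    IsE0 π E.toAffine Ek.toAffine P ↔ IsIdent A P := by
  obtain ⟨W₀, rfl, rfl⟩ := hR
  have hinj := A.subtype_injective
  have h1 : W₀.a₁ = 1 := hinj (by simpa using hE.a₁)
  have h3 : W₀.a₃ = 0 := hinj (by simpa using hE.a₃)
  have h6 : W₀.a₆ = 0 := hinj (by simpa using hE.a₆)
  have h4' : π W₀.a₄ = 0 := by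
    rw [pi_eq_zero_iff]
    exact h4
  have h2' : (2 : k) = 0 := by
    have : π (2 : A) = 0 := by
      rw [pi_eq_zero_iff]
      exact h2
    rwa [map_ofNat] at this
  rcases P with _ | ⟨x, y, h⟩
  · exact ⟨fun _ => trivial, fun _ => trivial⟩
  · rw [isE0_some, isIdent_some]
    constructor
    · intro hE0
      by_contra hlt
      rw [not_le] at hlt
      have hx : x ∈ A := (A.valuation_le_one_iff _).mp hlt.le
      obtain ⟨x', y', rfl, rfl⟩ := exists_lift_of_mem W₀ h hx
      have hns := hE0 hx
      rw [res_subtype, res_subtype] at hns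
      have he := equation_pi π W₀ h.left
      rw [frey_nonsingular_iff (by simp [h1]) (by simp [h3]) (by simp [h4']) (by simp [h6]) h2'
        he] at hns
      exact hns ((pi_eq_zero_iff π x').mpr hlt)
    · intro hle hx
      obtain ⟨x', y', rfl, rfl⟩ := exists_lift_of_mem W₀ h hx
      rw [res_subtype, res_subtype]
      have he := equation_pi π W₀ h.left
      rw [frey_nonsingular_iff (by simp [h1]) (by simp [h3]) (by simp [h4']) (by simp [h6]) h2'
        he]
      rw [Ne, pi_eq_zero_iff, not_lt]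
      exact hle

end RedTwo

end Fermat.Agent.S13.Two
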