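/-
P-S13: an automorphism of an algebraic extension which stabilises a valuation subring preserves
its valuation (orbit argument: the value would otherwise be strictly monotone along the finite
orbit of an algebraic element).
-/
import Mathlib

set_option autoImplicit false

namespace Fermat.Agent.S13.Two.ValEq

variable {F L : Type*} [Field F] [Field L] [Algebra F L]

/-- An automorphism stabilising `A` preserves the order of valuations. -/
theorem valuation_le_iff (A : ValuationSubring L) (σ : L ≃ₐ[F] L)
    (hσ : ∀ x, σ x ∈ A ↔ x ∈ A) (a b : L) :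
    A.valuation (σ a) ≤ A.valuation (σ b) ↔ A.valuation a ≤ A.valuation b := by
  by_cases hb : b = 0
  · subst hb
    simp only [map_zero, le_zero_iff, Valuation.zero_iff, EmbeddingLike.map_eq_zero_iff]
  · have hσb : σ b ≠ 0 := (EmbeddingLike.map_ne_zero_iff).mpr hb
    have h1 : A.valuation a ≤ A.valuation b ↔ a / b ∈ A := by
      rw [← A.valuation_le_one_iff, map_div₀,
        div_le_one₀ (zero_lt_iff.mpr ((Valuation.ne_zero_iff _).mpr hb))]
    have h2 : A.valuation (σ a) ≤ A.valuation (σ b) ↔ σ a / σ b ∈ A := by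
      rw [← A.valuation_le_one_iff, map_div₀,
        div_le_one₀ (zero_lt_iff.mpr ((Valuation.ne_zero_iff _).mpr hσb))]
    rw [h1, h2, ← map_div₀, hσ]

theorem valuation_lt_iff (A : ValuationSubring L) (σ : L ≃ₐ[F] L)
    (hσ : ∀ x, σ x ∈ A ↔ x ∈ A) (a b : L) :
    A.valuation (σ a) < A.valuation (σ b) ↔ A.valuation a < A.valuation b := by
  rw [← not_le, ← not_le, valuation_le_iff A σ hσ]

variable [Algebra.IsAlgebraic F L]

/-- The value cannot strictly decrease under `σ`. -/
theorem not_valuation_map_lt (A : ValuationSubring L) (σ : L ≃ₐ[F] L)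
    (hσ : ∀ x, σ x ∈ A ↔ x ∈ A) (w : L) : ¬ A.valuation (σ w) < A.valuation w := by
  intro hlt
  -- the sequence `n ↦ v (σⁿ w)` is strictly decreasing
  have hstep : ∀ n : ℕ, A.valuation ((σ ^ (n + 1)) w) < A.valuation ((σ ^ n) w) := by
    intro n
    induction n with
    | zero => simpa using hlt
    | succ n ih =>
      have e1 : (σ ^ (n + 1 + 1)) w = σ ((σ ^ (n + 1)) w) := by
        rw [pow_succ' σ (n + 1)]; rfl
      have e2 : (σ ^ (n + 1)) w = σ ((σ ^ n) w) := by
        rw [pow_succ' σ n]; rfl
      rw [e1]
      conv_rhs => rw [e2]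
      exact (valuation_lt_iff A σ hσ _ _).mpr ih
  have hanti : StrictAnti fun n : ℕ => A.valuation ((σ ^ n) w) :=
    strictAnti_nat_of_succ_lt hstep
  have hinj : Function.Injective fun n : ℕ => (σ ^ n) w := by
    intro m n hmn
    apply hanti.injective
    show A.valuation ((σ ^ m) w) = A.valuation ((σ ^ n) w)
    exact congrArg A.valuation hmn
  -- but the orbit is finite
  have hint : IsIntegral F w := Algebra.IsIntegral.isIntegral w
  have hne : minpoly F w ≠ 0 := minpoly.ne_zero hint
  have hsub : Set.range (fun n : ℕ => (σ ^ n) w) ⊆ (minpoly F w).rootSet L := by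
    rintro _ ⟨n, rfl⟩
    rw [Polynomial.mem_rootSet_of_ne hne]
    have : Polynomial.aeval (((σ ^ n : L ≃ₐ[F] L) : L →ₐ[F] L) w) (minpoly F w) = 0 := by
      rw [Polynomial.aeval_algHom_apply, minpoly.aeval, map_zero]
    exact this
  exact (Set.infinite_range_of_injective hinj)
    ((Polynomial.rootSet_finite (minpoly F w) L).subset hsub)

/-- **Valuation invariance**: an automorphism of an algebraic extension stabilising the
valuation subring `A` preserves the valuation of `A`. -/
theorem valuation_map_eq (A : ValuationSubring L) (σ : L ≃ₐ[F] L)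
    (hσ : ∀ x, σ x ∈ A ↔ x ∈ A) (z : L) : A.valuation (σ z) = A.valuation z := by
  apply le_antisymm
  · -- apply the previous result to `σ⁻¹` and `σ z`
    have hσ' : ∀ x, σ.symm x ∈ A ↔ x ∈ A := by
      intro x
      rw [← hσ (σ.symm x), AlgEquiv.apply_symm_apply]
    have := not_valuation_map_lt A σ.symm hσ' (σ z)
    rwa [AlgEquiv.symm_apply_apply, not_lt] at this
  · exact not_lt.mp (not_valuation_map_lt A σ hσ z)

end Fermat.Agent.S13.Two.ValEq
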