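/-
P-S13, local analysis at `2`: the PROVIDER of `TwoInput P A` (`S13/Two/Input.lean`) for every
valuation subring `A` of `ℚ̄` over `2`.

The Frey curve `E : y² + x y = x³ + a₂ x² + a₄ x` has `a₂ ∈ ℤ`, `a₄ ∈ 2ℤ ∖ {0}`.  With `α² + α = a₂`,
`u = 1 + 2α` (a unit of `A`), `S13/Two/Transfer.lean` gives `ψ : N_b(ℚ̄) ≃+ E(ℚ̄)`, `b = a₄ / u⁴`,
`x_E = u² X`.  Inertia fixes `α` (the two roots differ by the unit `u`), so `σ ψ(X, Y) = ψ(σX, σY)`.
The five fields of `TwoInput` then come from `S13/Nodal` (`identSubgroup`), `S13/LocalMultFinal`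
(LM1, LM4), `S13/LocalL0` (L0) and valuation invariance `S13/Two/ValEq`.
-/
import Mathlib
import Fermat.Agent.S13.Two.Input
import Fermat.Agent.S13.Two.Transfer
import Fermat.Agent.S13.Two.ValEq
import Fermat.Agent.S13.LocalMultFinal
import Fermat.Agent.S05.Arith

set_option autoImplicit false
set_option linter.unusedSectionVars false

namespace Fermat.Agent.S13.Two

open WeierstrassCurve WeierstrassCurve.Affine WeierstrassCurve.Affine.Point
open Fermat.Agent.Lib.EC Fermat.Agent.S13.Nodal Fermat.Agent.S13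
open Fermat.Agent.Lib.EC.LocalOrder (xCoord xCoord_some xCoord_zero)

/-! ### Arithmetic of the Frey coefficients -/

section Arith

variable (P : FreyPackage)

theorem thirtytwo_dvd_b_pow : (32 : ℤ) ∣ P.b ^ P.p := by
  have h2 : (2 : ℤ) ∣ P.b := (ZMod.intCast_zmod_eq_zero_iff_dvd P.b 2).1 P.hb2
  have h5 : (2 : ℤ) ^ 5 ∣ P.b ^ P.p :=
    dvd_trans (pow_dvd_pow 2 P.hp5) (pow_dvd_pow_of_dvd h2 _)
  norm_num at h5
  exact h5

theorem four_dvd_a₂_num : (4 : ℤ) ∣ P.b ^ P.p - 1 - P.a ^ P.p := by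
  have hb : (4 : ℤ) ∣ P.b ^ P.p := dvd_trans (by norm_num) (thirtytwo_dvd_b_pow P)
  have hb4 : ((P.b : ZMod 4)) ^ P.p = 0 := by
    have := (ZMod.intCast_zmod_eq_zero_iff_dvd (P.b ^ P.p) 4).2 hb
    push_cast at this
    exact this
  apply (ZMod.intCast_zmod_eq_zero_iff_dvd _ 4).1
  push_cast
  rw [hb4, P.ha4]
  have h3 : (3 : ZMod 4) = -1 := by decide
  rw [h3, Odd.neg_one_pow P.hp_odd]
  ring

theorem exists_int_a₂ : ∃ n : ℤ, P.freyCurve.a₂ = (n : ℚ) := by
  obtain ⟨n, hn⟩ := four_dvd_a₂_num P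
  refine ⟨n, ?_⟩
  have h : ((P.b : ℚ) ^ P.p - 1 - (P.a : ℚ) ^ P.p) = 4 * (n : ℚ) := by
    exact_mod_cast hn
  show ((P.b : ℚ) ^ P.p - 1 - (P.a : ℚ) ^ P.p) / 4 = (n : ℚ)
  rw [h]
  ring

theorem exists_int_a₄ : ∃ m : ℤ, m ≠ 0 ∧ P.freyCurve.a₄ = ((2 * m : ℤ) : ℚ) := by
  obtain ⟨t, ht⟩ := thirtytwo_dvd_b_pow P
  have ht0 : t ≠ 0 := by
    rintro rfl
    rw [mul_zero] at ht
    exact pow_ne_zero _ P.hb0 ht
  refine ⟨-(P.a ^ P.p) * t, mul_ne_zero (neg_ne_zero.mpr (pow_ne_zero _ P.ha0)) ht0, ?_⟩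
  have h : ((P.b : ℚ) ^ P.p) = 32 * (t : ℚ) := by exact_mod_cast ht
  show -((P.a : ℚ) ^ P.p) * ((P.b : ℚ) ^ P.p) / 16 = _
  rw [h]
  push_cast
  ring

end Arith

/-! ### The Frey curve over `ℚ̄` at a valuation subring over `2` -/

section Setup

variable (P : FreyPackage)

/-- The Frey curve over `ℚ̄`, as a Weierstrass curve. -/
noncomputable abbrev EQ : WeierstrassCurve Qbar := P.freyCurve.baseChange Qbar

theorem isFreyShape_EQ : IsFreyShape (EQ P) := by
  refine ⟨?_, ?_, ?_⟩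
  · show algebraMap ℚ Qbar (1 : ℚ) = 1
    exact map_one _
  · show algebraMap ℚ Qbar (0 : ℚ) = 0
    exact map_zero _
  · show algebraMap ℚ Qbar (0 : ℚ) = 0
    exact map_zero _

variable (A : ValuationSubring Qbar)

theorem a₂_mem_EQ : (EQ P).a₂ ∈ A := by
  obtain ⟨n, hn⟩ := exists_int_a₂ P
  have : (EQ P).a₂ = (n : Qbar) := by
    show algebraMap ℚ Qbar P.freyCurve.a₂ = _
    rw [hn]
    exact map_intCast _ _
  rw [this]
  exact Fermat.Agent.S05.intCast_mem A n

variable {A} (hA : A.LiesOverPrime 2)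
include hA

theorem valuation_two_lt_one : A.valuation (2 : Qbar) < 1 := by
  have h : ((2 : ℕ) : Qbar) ∈ A.nonunits := hA
  have := (ValuationSubring.mem_nonunits_iff A).mp h
  simpa using this

theorem valuation_a₄_EQ_lt_one : A.valuation (EQ P).a₄ < 1 := by
  obtain ⟨m, -, hm⟩ := exists_int_a₄ P
  have : (EQ P).a₄ = ((2 * m : ℤ) : Qbar) := by
    show algebraMap ℚ Qbar P.freyCurve.a₄ = _
    rw [hm]
    exact map_intCast _ _
  rw [this]
  exact Fermat.Agent.S05.valuation_intCast_lt_one hA (Dvd.intro m rfl)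

omit hA in
theorem a₄_EQ_ne_zero : (EQ P).a₄ ≠ 0 := by
  obtain ⟨m, hm0, hm⟩ := exists_int_a₄ P
  have : (EQ P).a₄ = ((2 * m : ℤ) : Qbar) := by
    show algebraMap ℚ Qbar P.freyCurve.a₄ = _
    rw [hm]
    exact map_intCast _ _
  rw [this]
  have h2m : (2 * m : ℤ) ≠ 0 := mul_ne_zero two_ne_zero hm0
  exact_mod_cast h2m

theorem valuation_p_eq_one : A.valuation (P.p : Qbar) = 1 := by
  have h : ¬ ((2 : ℕ) : ℤ) ∣ (P.p : ℤ) := by
    intro hd
    have h1 : 2 ∣ P.p := by exact_mod_cast hd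
    have := (Nat.prime_dvd_prime_iff_eq Nat.prime_two P.pp).mp h1
    have := P.hp5
    omega
  have := Fermat.Agent.S05.valuation_intCast_eq_one Nat.prime_two hA h
  simpa using this

end Setup

/-! ### The identity component in Frey coordinates -/

section Main

variable (P : FreyPackage) {A : ValuationSubring Qbar}

theorem isE0Two_iff_isIdent (Q : (EQ P).toAffine.Point) : IsE0Two P A Q ↔ IsIdent A Q := by
  rcases Q with _ | ⟨x, y, h⟩
  · exact ⟨fun _ => trivial, fun _ => Or.inl rfl⟩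
  · rw [isIdent_some]
    constructor
    · rintro (h0 | h1)
      · exact absurd h0 (Point.some_ne_zero _)
      · exact h1
    · intro h1
      exact Or.inr h1

/-- A root of `T² + T = a₂` in `ℚ̄`. -/
theorem exists_alpha : ∃ α : Qbar, α ^ 2 + α = (EQ P).a₂ := by
  obtain ⟨s, hs⟩ := IsAlgClosed.exists_pow_nat_eq (4 * (EQ P).a₂ + 1) (n := 2) (by norm_num)
  refine ⟨(s - 1) / 2, ?_⟩
  have h2 : (2 : Qbar) ≠ 0 := two_ne_zero
  field_simp
  linear_combination hs

variable (hA : A.LiesOverPrime 2) {α : Qbar} (hα : α ^ 2 + α = (EQ P).a₂)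
include hA hα

theorem alpha_mem_A : α ∈ A := alpha_mem hα (a₂_mem_EQ P A)

theorem valuation_u_eq_one : A.valuation (1 + 2 * α) = 1 :=
  valuation_u (valuation_two_lt_one hA) (alpha_mem_A P hA hα)

theorem u_ne_zero' : 1 + 2 * α ≠ 0 := u_ne_zero_of_valuation (valuation_u_eq_one P hA hα)

theorem nodalData_two : NodalData A (nodalOf (EQ P) α).toAffine :=
  nodalData_nodalOf (valuation_u_eq_one P hA hα) (valuation_a₄_EQ_lt_one P hA) (a₄_EQ_ne_zero P)

/-- Inertia fixes `α`: the two roots of `T² + T = a₂` differ by the unit `u`. -/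
theorem inertia_alpha {σ : GQ} (hσ : σ ∈ A.inertiaSubgroupIn ℚ) : σ α = α := by
  have hroot : (σ α) ^ 2 + σ α = (EQ P).a₂ := by
    have h1 : σ (EQ P).a₂ = (EQ P).a₂ := by
      show σ (algebraMap ℚ Qbar P.freyCurve.a₂) = algebraMap ℚ Qbar P.freyCurve.a₂
      exact σ.commutes _
    rw [← h1, ← hα, map_add, map_pow]
  have hprod : (σ α - α) * (σ α + α + 1) = 0 := by
    linear_combination hroot - hα
  rcases mul_eq_zero.mp hprod with h | h
  · exact sub_eq_zero.mp h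
  · exfalso
    have hlt := Fermat.Agent.S05.inertia_sub_lt_one hσ (alpha_mem_A P hA hα)
    have e : σ α - α = -(1 + 2 * α) := by linear_combination h
    rw [e, Valuation.map_neg, valuation_u_eq_one P hA hα] at hlt
    exact lt_irrefl _ hlt

/-- The transfer isomorphism `ψ : N_b(ℚ̄) ≃+ E(ℚ̄)` at `A`. -/
noncomputable def psi : (nodalOf (EQ P) α).toAffine.Point ≃+ (EQ P).toAffine.Point :=
  transferEquiv (isFreyShape_EQ P) hα (u_ne_zero' P hA hα)

theorem psi_some {X Y : Qbar} (h : (nodalOf (EQ P) α).toAffine.Nonsingular X Y) :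
    ∃ h' : (EQ P).toAffine.Nonsingular ((1 + 2 * α) ^ 2 * X)
        ((1 + 2 * α) ^ 3 * Y + (1 + 2 * α) ^ 2 * α * X),
      psi P hA hα (Point.some X Y h) = Point.some _ _ h' :=
  transfer_some (isFreyShape_EQ P) hα (u_ne_zero' P hA hα) h

theorem isIdent_psi_iff (Q : (nodalOf (EQ P) α).toAffine.Point) :
    IsIdent A (psi P hA hα Q) ↔ IsIdent A Q :=
  isIdent_transfer_iff (isFreyShape_EQ P) hα (valuation_u_eq_one P hA hα) Q

theorem valuation_xCoord_psi (Q : (nodalOf (EQ P) α).toAffine.Point) :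
    A.valuation (xCoord (EQ P).toAffine (psi P hA hα Q)) =
      A.valuation (xCoord (nodalOf (EQ P) α).toAffine Q) := by
  rcases Q with _ | ⟨X, Y, h⟩
  · have : psi P hA hα (Point.zero) = 0 := map_zero (psi P hA hα)
    rw [this]
    rfl
  · obtain ⟨h', e⟩ := psi_some P hA hα h
    rw [e, xCoord_some, xCoord_some, map_mul, map_pow, valuation_u_eq_one P hA hα, one_pow,
      one_mul]

/-- Inertia commutes with the transfer: `σ ψ(X, Y) = ψ(σ X, σ Y)`. -/
theorem smul_psi_some {σ : GQ} (hσ : σ ∈ A.inertiaSubgroupIn ℚ) {X Y : Qbar}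
    (h : (nodalOf (EQ P) α).toAffine.Nonsingular X Y) :
    ∃ h'' : (nodalOf (EQ P) α).toAffine.Nonsingular (σ X) (σ Y),
      σ • psi P hA hα (Point.some X Y h) = psi P hA hα (Point.some (σ X) (σ Y) h'') := by
  have hσα := inertia_alpha P hA hα hσ
  have hu := u_ne_zero' P hA hα
  obtain ⟨h', e⟩ := psi_some P hA hα h
  have e1 : σ • psi P hA hα (Point.some X Y h) =
      Point.map (W' := P.freyCurve) σ.toAlgHom (Point.some _ _ h') := by
    rw [e]; rfl
  rw [Point.map_some] at e1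
  -- the preimage
  obtain ⟨q', hq'⟩ := (psi P hA hα).surjective (σ • psi P hA hα (Point.some X Y h))
  rcases q' with _ | ⟨X', Y', h''⟩
  · exfalso
    have h0 : psi P hA hα (Point.zero) = 0 := map_zero (psi P hA hα)
    rw [h0, e1] at hq'
    exact Point.some_ne_zero _ hq'.symm
  · obtain ⟨h3, e3⟩ := psi_some P hA hα h''
    rw [e3, e1] at hq'
    have hinj := Point.some.inj hq'
    obtain ⟨hx, hy⟩ := hinj
    have hσu : σ (1 + 2 * α) = 1 + 2 * α := by
      rw [map_add, map_mul, map_one, hσα, map_ofNat]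
    have hX' : X' = σ X := by
      have hx' : (1 + 2 * α) ^ 2 * X' = (1 + 2 * α) ^ 2 * σ X := by
        rw [hx]
        show σ ((1 + 2 * α) ^ 2 * X) = _
        rw [map_mul, map_pow, hσu]
      exact mul_left_cancel₀ (pow_ne_zero _ hu) hx'
    have hY' : Y' = σ Y := by
      have hy' : (1 + 2 * α) ^ 3 * Y' + (1 + 2 * α) ^ 2 * α * X' =
          (1 + 2 * α) ^ 3 * σ Y + (1 + 2 * α) ^ 2 * α * σ X := by
        rw [hy]
        show σ ((1 + 2 * α) ^ 3 * Y + (1 + 2 * α) ^ 2 * α * X) = _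
        rw [map_add, map_mul, map_mul, map_mul, map_pow, map_pow, hσu, hσα]
      rw [hX'] at hy'
      have := add_right_cancel hy'
      exact mul_left_cancel₀ (pow_ne_zero _ hu) this
    subst hX' hY'
    refine ⟨h'', ?_⟩
    rw [e1, e3]
    exact hq'.symm

omit hA hα in
/-- Valuation invariance under inertia. -/
theorem inertia_valuation_eq {σ : GQ} (hσ : σ ∈ A.inertiaSubgroupIn ℚ) (z : Qbar) :
    A.valuation (σ z) = A.valuation z := by
  have : Algebra.IsAlgebraic ℚ Qbar := AlgebraicClosure.isAlgebraic ℚ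
  exact ValEq.valuation_map_eq A σ (fun _ => Fermat.Agent.S05.inertia_map_mem_iff hσ) z

/-! ### The five fields -/

theorem isE0Two_add (Q R : (EQ P).toAffine.Point) (hQ : IsE0Two P A Q) (hR : IsE0Two P A R) :
    IsE0Two P A (Q + R) := by
  rw [isE0Two_iff_isIdent] at hQ hR ⊢
  set ψ := psi P hA hα
  obtain ⟨q, rfl⟩ := ψ.surjective Q
  obtain ⟨r, rfl⟩ := ψ.surjective R
  rw [isIdent_psi_iff] at hQ hR
  rw [← map_add, isIdent_psi_iff]
  exact isIdent_add (nodalData_two P hA hα) hQ hR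

theorem isE0Two_neg (Q : (EQ P).toAffine.Point) (hQ : IsE0Two P A Q) : IsE0Two P A (-Q) := by
  rw [isE0Two_iff_isIdent] at hQ ⊢
  set ψ := psi P hA hα
  obtain ⟨q, rfl⟩ := ψ.surjective Q
  rw [isIdent_psi_iff] at hQ
  rw [← map_neg, isIdent_psi_iff]
  exact isIdent_neg (nodalData_two P hA hα) hQ

theorem isE0Two_smul_sub {σ : GQ} (hσ : σ ∈ A.inertiaSubgroupIn ℚ) (Q : (EQ P).toAffine.Point) :
    IsE0Two P A (σ • Q - Q) := by
  rw [isE0Two_iff_isIdent]
  set ψ := psi P hA hα with hψ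
  obtain ⟨q, rfl⟩ := ψ.surjective Q
  rcases q with _ | ⟨X, Y, h⟩
  · have h0 : ψ (Point.zero) = 0 := map_zero ψ
    have e0 : σ • (0 : (EQ P).toAffine.Point) = 0 := rfl
    rw [h0, e0, sub_zero]
    trivial
  · obtain ⟨h'', e⟩ := smul_psi_some P hA hα hσ h
    rw [e, ← map_sub, isIdent_psi_iff]
    exact LocalMult.sub_isIdent_of_map' (nodalData_two P hA hα) (σ : Qbar →+* Qbar)
      (inertia_valuation_eq hσ) h h''

theorem smul_eq_self_of_isE0Two {σ : GQ} (hσ : σ ∈ A.inertiaSubgroupIn ℚ)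
    (Q : (EQ P).toAffine.Point) (hQ : IsE0Two P A Q) (hpQ : P.p • Q = 0) : σ • Q = Q := by
  classical
  rw [isE0Two_iff_isIdent] at hQ
  have hW : IsIntegralOver A (EQ P).toAffine := by
    have hE := isFreyShape_EQ P
    refine ⟨?_, a₂_mem_EQ P A, ?_, ?_, ?_⟩
    · rw [hE.a₁]; exact A.one_mem
    · rw [hE.a₃]; exact A.zero_mem
    · exact (A.valuation_le_one_iff _).mp (valuation_a₄_EQ_lt_one P hA).le
    · rw [hE.a₆]; exact A.zero_mem
  have hR := isReduction_of_isIntegralOver (IsLocalRing.residue A) hW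
  have hE0 := (isE0_iff_isIdent_of_two (isFreyShape_EQ P) (valuation_two_lt_one hA)
    (valuation_a₄_EQ_lt_one P hA) hR Q).mpr hQ
  exact LocalL0.map_eq_self_of_isE0 P.freyCurve hR σ.toAlgHom
    (fun t ht => Fermat.Agent.S05.inertia_sub_lt_one hσ ht) (valuation_p_eq_one P hA) hE0 hpQ

theorem prod_valuation_xCoord_two (Q : (EQ P).toAffine.Point) (hpQ : P.p • Q = 0)
    (hQ : ¬ IsE0Two P A Q) :
    ∏ j ∈ Finset.Ico 1 (P.p / 2 + 1), A.valuation (xCoord (EQ P).toAffine (j • Q)) ^ P.p =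
      A.valuation (EQ P).toAffine.a₄ ^ ((P.p ^ 2 - 1) / 4) := by
  rw [isE0Two_iff_isIdent] at hQ
  set ψ := psi P hA hα with hψ
  obtain ⟨q, rfl⟩ := ψ.surjective Q
  rw [isIdent_psi_iff] at hQ
  have hpq : P.p • q = 0 := by
    apply ψ.injective
    rw [map_nsmul, hpQ, _root_.map_zero]
  have : Fact P.p.Prime := ⟨P.pp⟩
  have hp2 : P.p ≠ 2 := by have := P.hp5; omega
  have key := LocalMult.prod_valuation_xCoord_pow' (nodalData_two P hA hα) hp2 hpq hQ
  have ha4 : A.valuation (EQ P).toAffine.a₄ = A.valuation (nodalOf (EQ P) α).toAffine.a₄ :=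
    (valuation_nodalOf_a₄ (valuation_u_eq_one P hA hα)).symm
  rw [ha4, ← key]
  refine Finset.prod_congr rfl fun j _ => ?_
  rw [← map_nsmul, valuation_xCoord_psi]

end Main

/-- **The local input at `2`**: every valuation subring of `ℚ̄` over `2` satisfies `TwoInput`. -/
theorem twoInput (P : FreyPackage) (A : ValuationSubring Qbar) (hA : A.LiesOverPrime 2) :
    TwoInput P A := by
  obtain ⟨α, hα⟩ := exists_alpha P
  exact
    { add := isE0Two_add P hA hα
      neg := isE0Two_neg P hA hα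
      lm1 := fun σ hσ Q => isE0Two_smul_sub P hA hα hσ Q
      l0 := fun σ hσ Q hQ hpQ => smul_eq_self_of_isE0Two P hA hα hσ Q hQ hpQ
      lm4 := fun Q hpQ hQ => prod_valuation_xCoord_two P hA hα Q hpQ hQ }

end Fermat.Agent.S13.Two
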